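import Fermat.Agent.S55.Local.Spec

/-!
# S55, layer L, pieces A4b and A4c : standard 2-cocycles of a finite cyclic group

* `cycCocycle_coboundary_iff : CycCocycleCoboundaryIffStatement`
* `cycCocycle_surj : CycCocycleSurjStatement`

* `cycCocycle_isCocycle : CycCocycleIsCocycleStatement` (A4a, needed on the way)
-/

set_option autoImplicit false

namespace Fermat.Agent.S55.Local.H241

open Subgroup Finset groupCohomology

/-! ### Discrete logarithm -/

section Idx

variable {G : Type} [Group G] [Finite G] {σ : G}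

omit [Finite G] in
lemma orderOf_gen (hσ : ∀ g, g ∈ zpowers σ) : orderOf σ = Nat.card G :=
  orderOf_eq_card_of_forall_mem_zpowers hσ

omit [Finite G] in
lemma gen_pow_card (hσ : ∀ g, g ∈ zpowers σ) : σ ^ Nat.card G = 1 := by
  rw [← orderOf_gen hσ]; exact pow_orderOf_eq_one σ

lemma cycIdx_spec (hσ : ∀ g, g ∈ zpowers σ) (g : G) : σ ^ cycIdx σ g = g := by
  have hne : {k : ℕ | σ ^ k = g}.Nonempty := by
    obtain ⟨k, hk⟩ := (mem_powers_iff_mem_zpowers (x := σ) (y := g)).2 (hσ g)
    exact ⟨k, hk⟩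
  exact Nat.sInf_mem hne

lemma cycIdx_lt (hσ : ∀ g, g ∈ zpowers σ) (g : G) : cycIdx σ g < Nat.card G := by
  have h1 : σ ^ (cycIdx σ g % Nat.card G) = g := by
    rw [← orderOf_gen hσ, pow_mod_orderOf]; exact cycIdx_spec hσ g
  have h2 : cycIdx σ g ≤ cycIdx σ g % Nat.card G := Nat.sInf_le h1
  exact lt_of_le_of_lt h2 (Nat.mod_lt _ Nat.card_pos)

lemma cycIdx_pow (hσ : ∀ g, g ∈ zpowers σ) (k : ℕ) :
    cycIdx σ (σ ^ k) = k % Nat.card G := by
  have h1 := cycIdx_spec hσ (σ ^ k)
  rw [pow_eq_pow_iff_modEq, orderOf_gen hσ] at h1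
  have h2 := cycIdx_lt hσ (σ ^ k)
  rw [← Nat.mod_eq_of_lt h2]
  exact h1

lemma cycIdx_one (hσ : ∀ g, g ∈ zpowers σ) : cycIdx σ (1 : G) = 0 := by
  have := cycIdx_pow hσ 0
  rwa [pow_zero, Nat.zero_mod] at this

lemma cycIdx_gen (hσ : ∀ g, g ∈ zpowers σ) (h2 : 2 ≤ Nat.card G) : cycIdx σ σ = 1 := by
  have := cycIdx_pow hσ 1
  rwa [pow_one, Nat.mod_eq_of_lt h2] at this

lemma cycIdx_mul (hσ : ∀ g, g ∈ zpowers σ) (g h : G) :
    cycIdx σ (g * h) = (cycIdx σ g + cycIdx σ h) % Nat.card G := by
  have h1 : g * h = σ ^ (cycIdx σ g + cycIdx σ h) := by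
    rw [pow_add, cycIdx_spec hσ, cycIdx_spec hσ]
  rw [h1]
  exact cycIdx_pow hσ _

lemma cycIdx_mul_gen_of_lt (hσ : ∀ g, g ∈ zpowers σ) (h2 : 2 ≤ Nat.card G) (g : G)
    (hk : cycIdx σ g + 1 < Nat.card G) : cycIdx σ (g * σ) = cycIdx σ g + 1 := by
  rw [cycIdx_mul hσ, cycIdx_gen hσ h2, Nat.mod_eq_of_lt hk]

lemma cycIdx_mul_gen_of_eq (hσ : ∀ g, g ∈ zpowers σ) (h2 : 2 ≤ Nat.card G) (g : G)
    (hk : cycIdx σ g + 1 = Nat.card G) : cycIdx σ (g * σ) = 0 := by
  rw [cycIdx_mul hσ, cycIdx_gen hσ h2, hk, Nat.mod_self]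

lemma carry (n a k : ℕ) (hn : 0 < n) : (a % n + k) / n + a / n = (a + k) / n := by
  conv_rhs => rw [← Nat.div_add_mod a n]
  rw [show n * (a / n) + a % n + k = (a % n + k) + n * (a / n) by ring]
  rw [Nat.add_mul_div_left _ _ hn]

lemma prod_univ_eq_prod_range {M : Type} [CommMonoid M] [Fintype G]
    (hσ : ∀ g, g ∈ zpowers σ) (f : G → M) :
    ∏ g : G, f g = ∏ k ∈ range (Nat.card G), f (σ ^ k) := by
  symm
  refine Finset.prod_nbij' (fun k => σ ^ k) (cycIdx σ) ?_ ?_ ?_ ?_ ?_
  · intro k _; exact mem_univ _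
  · intro g _; exact mem_range.2 (cycIdx_lt hσ g)
  · intro k hk; rw [cycIdx_pow hσ, Nat.mod_eq_of_lt (mem_range.1 hk)]
  · intro g _; exact cycIdx_spec hσ g
  · intro k _; rfl

end Idx

/-! ### Generalities on 2-cocycles -/

section Cocycle

variable {G M : Type} [Group G] [CommGroup M] [MulDistribMulAction G M]

/-- The coboundary of a 1-cochain. -/
def cob (b : G → M) : G × G → M := fun p => p.1 • b p.2 / b (p.1 * p.2) * b p.1

lemma cob_apply (b : G → M) (g h : G) : cob b (g, h) = g • b h / b (g * h) * b g := rfl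

lemma isMulCoboundary₂_iff (f : G × G → M) :
    IsMulCoboundary₂ f ↔ ∃ b : G → M, ∀ p, f p = cob b p := by
  constructor
  · rintro ⟨b, hb⟩
    exact ⟨b, fun p => (hb p.1 p.2).symm⟩
  · rintro ⟨b, hb⟩
    exact ⟨b, fun g h => (hb (g, h)).symm⟩

lemma cob_isMulCocycle₂ (b : G → M) : IsMulCocycle₂ (cob b) := by
  intro g h j
  simp only [cob_apply, smul_mul', smul_div', mul_smul, mul_assoc]
  apply Additive.ofMul.injective
  simp only [ofMul_mul, ofMul_div]
  abel

lemma isMulCocycle₂_div {c c' : G × G → M} (hc : IsMulCocycle₂ c) (hc' : IsMulCocycle₂ c') :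
    IsMulCocycle₂ (fun p => c p / c' p) := by
  intro g h j
  simp only
  rw [smul_div', div_mul_div_comm, div_mul_div_comm, hc g h j, hc' g h j]

end Cocycle

section Cyclic

variable {G M : Type} [Group G] [Finite G] [CommGroup M] [MulDistribMulAction G M] {σ : G}

omit [Finite G] in
lemma smul_eq_of_gen (hσ : ∀ g, g ∈ zpowers σ) {x : M} (hx : σ • x = x) (g : G) :
    g • x = x := by
  have h : zpowers σ ≤ MulAction.stabilizer G x := by
    rw [zpowers_le]; exact hx
  exact h (hσ g)

/-- (A4a, own copy) the standard cyclic 2-cocycle is a 2-cocycle. -/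
lemma cycCocycle_isMulCocycle₂ (hσ : ∀ g, g ∈ zpowers σ) {x : M} (hx : σ • x = x) :
    IsMulCocycle₂ (cycCocycle σ x) := by
  intro g h j
  simp only [cycCocycle]
  rw [smul_pow', smul_eq_of_gen hσ hx, ← pow_add, ← pow_add]
  congr 1
  rw [cycIdx_mul hσ g h, cycIdx_mul hσ h j, carry _ _ _ Nat.card_pos,
    add_comm (cycIdx σ g) (_ % _), add_comm ((cycIdx σ h + cycIdx σ j) / _),
    carry _ _ _ Nat.card_pos]
  congr 1
  ring

/-- (A4a) in the frozen form of the layer-L interface. -/
theorem cycCocycle_isCocycle : CycCocycleIsCocycleStatement :=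
  fun _ _ _ _ _ _ _ hσ _ hx => cycCocycle_isMulCocycle₂ hσ hx

/-- A 2-cocycle of a finite cyclic group which is trivial at `(1, 1)` and at all `(g, σ)` is
trivial. -/
lemma cocycle_eq_one (hσ : ∀ g, g ∈ zpowers σ) {d : G × G → M} (hd : IsMulCocycle₂ d)
    (h1 : d (1, 1) = 1) (h2 : ∀ g, d (g, σ) = 1) (p : G × G) : d p = 1 := by
  have key : ∀ (k : ℕ) (g : G), d (g, σ ^ k) = 1 := by
    intro k
    induction k with
    | zero =>
      intro g
      rw [pow_zero, map_one_snd_of_isMulCocycle₂ hd, h1, smul_one]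
    | succ k ih =>
      intro g
      have := hd g (σ ^ k) σ
      rw [h2, ih, h2, smul_one, one_mul, one_mul, ← pow_succ] at this
      exact this.symm
  obtain ⟨g, h⟩ := p
  rw [← cycIdx_spec hσ h]
  exact key _ g

end Cyclic

/-! ### (A4c) every 2-cocycle is cohomologous to a standard one -/

section Surj

variable {G M : Type} [Group G] [Finite G] [CommGroup M] [MulDistribMulAction G M] {σ : G}

omit [Finite G] in
lemma smul_prod_diag (hσ : ∀ g, g ∈ zpowers σ) {c : G × G → M} (hc : IsMulCocycle₂ c) :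
    σ • (∏ k ∈ range (Nat.card G), c (σ ^ k, σ)) = ∏ k ∈ range (Nat.card G), c (σ ^ k, σ) := by
  have hstep : ∀ k, σ • c (σ ^ k, σ) =
      c (σ ^ (k + 1), σ) * (c (σ, σ ^ k) / c (σ, σ ^ (k + 1))) := by
    intro k
    have := hc σ (σ ^ k) σ
    rw [← pow_succ', ← pow_succ] at this
    rw [← mul_div_assoc, this, mul_div_assoc, div_self', mul_one]
  rw [Finset.smul_prod']
  simp only [hstep]
  rw [Finset.prod_mul_distrib, Finset.prod_range_div' (fun k => c (σ, σ ^ k)), pow_zero,
    gen_pow_card hσ, div_self', mul_one]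
  have h1 := Finset.prod_range_succ (fun k => c (σ ^ k, σ)) (Nat.card G)
  have h2 := Finset.prod_range_succ' (fun k => c (σ ^ k, σ)) (Nat.card G)
  simp only [gen_pow_card hσ, pow_zero] at h1 h2
  rw [h1] at h2
  exact (mul_right_cancel h2).symm

/-- (A4c) every 2-cocycle of a finite cyclic group is cohomologous to a standard one. -/
theorem cycCocycle_surj : CycCocycleSurjStatement := by
  intro G M _ _ _ _ σ hσ c hc
  have hc1 : ∀ j, c (1, j) = c (1, 1) := map_one_fst_of_isMulCocycle₂ hc
  rcases Nat.lt_or_ge (Nat.card G) 2 with hlt | h2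
  · -- trivial group
    have hcard : Nat.card G = 1 := by have := Nat.card_pos (α := G); omega
    have : Subsingleton G := (Nat.card_eq_one_iff_unique.mp hcard).1
    refine ⟨1, smul_one σ, (isMulCoboundary₂_iff _).2 ⟨fun _ => c (1, 1), ?_⟩⟩
    rintro ⟨g, h⟩
    obtain rfl : g = 1 := Subsingleton.elim _ _
    obtain rfl : h = 1 := Subsingleton.elim _ _
    simp [cob_apply, cycCocycle]
  · obtain ⟨x, hx⟩ : ∃ x : M, x = ∏ k ∈ range (Nat.card G), c (σ ^ k, σ) := ⟨_, rfl⟩
    have hxinv : σ • x = x := by rw [hx]; exact smul_prod_diag hσ hc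
    refine ⟨x, hxinv, ?_⟩
    let b : G → M := fun g => c (1, 1) * (∏ l ∈ range (cycIdx σ g), c (σ ^ l, σ))⁻¹
    rw [isMulCoboundary₂_iff]
    refine ⟨b, fun p => ?_⟩
    have hd : IsMulCocycle₂ (fun p => c p / cycCocycle σ x p / cob b p) :=
      isMulCocycle₂_div (isMulCocycle₂_div hc (cycCocycle_isMulCocycle₂ hσ hxinv))
        (cob_isMulCocycle₂ b)
    have h11 : c (1, 1) / cycCocycle σ x (1, 1) / cob b (1, 1) = 1 := by
      simp [cob_apply, cycCocycle, b, cycIdx_one hσ]
    have hgσ : ∀ g, c (g, σ) / cycCocycle σ x (g, σ) / cob b (g, σ) = 1 := by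
      intro g
      have hk := cycIdx_lt hσ g
      have hcg : c (g, σ) = c (σ ^ cycIdx σ g, σ) := by rw [cycIdx_spec hσ g]
      have hbσ : b σ = 1 := by
        simp only [b, cycIdx_gen hσ h2, prod_range_one, pow_zero, hc1, mul_inv_cancel]
      have hbg : b g = c (1, 1) * (∏ l ∈ range (cycIdx σ g), c (σ ^ l, σ))⁻¹ := rfl
      simp only [cob_apply, cycCocycle, hbσ, smul_one, cycIdx_gen hσ h2]
      rcases Nat.lt_or_ge (cycIdx σ g + 1) (Nat.card G) with hlt | hge
      · have hb' : b (g * σ) = c (1, 1) *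
            ((∏ l ∈ range (cycIdx σ g), c (σ ^ l, σ)) * c (σ ^ cycIdx σ g, σ))⁻¹ := by
          simp only [b, cycIdx_mul_gen_of_lt hσ h2 g hlt, prod_range_succ]
        rw [hb', hbg, hcg, Nat.div_eq_of_lt hlt, pow_zero]
        apply Additive.ofMul.injective
        simp only [ofMul_mul, ofMul_div, ofMul_inv, ofMul_one]
        abel
      · have heq : cycIdx σ g + 1 = Nat.card G := by omega
        have hb' : b (g * σ) = c (1, 1) := by
          simp only [b, cycIdx_mul_gen_of_eq hσ h2 g heq, prod_range_zero, inv_one, mul_one]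
        have hxe : x = (∏ l ∈ range (cycIdx σ g), c (σ ^ l, σ)) * c (σ ^ cycIdx σ g, σ) := by
          rw [hx, ← heq, prod_range_succ]
        rw [hb', hbg, hcg, heq, Nat.div_self (by omega), pow_one, hxe]
        apply Additive.ofMul.injective
        simp only [ofMul_mul, ofMul_div, ofMul_inv, ofMul_one]
        abel
    exact div_eq_one.mp (cocycle_eq_one hσ hd h11 hgσ p)

end Surj

/-! ### (A4b) the standard cocycle of `x` is a coboundary iff `x` is a norm -/

section Iff

/-- (A4b) the standard cyclic 2-cocycle of `x` is a coboundary iff `x` is a norm. -/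
theorem cycCocycle_coboundary_iff : CycCocycleCoboundaryIffStatement := by
  intro G M _ _ _ _ σ hσ x hx
  have hnorm : ∀ y : M, ∏ g : G, g • y = ∏ k ∈ range (Nat.card G), σ ^ k • y :=
    fun y => prod_univ_eq_prod_range hσ (fun g => g • y)
  rcases Nat.lt_or_ge (Nat.card G) 2 with hlt | h2
  · -- trivial group: both sides hold
    have hcard : Nat.card G = 1 := by have := Nat.card_pos (α := G); omega
    have : Subsingleton G := (Nat.card_eq_one_iff_unique.mp hcard).1
    constructor
    · intro _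
      refine ⟨x, ?_⟩
      rw [hnorm, hcard, prod_range_one, pow_zero, one_smul]
    · intro _
      rw [isMulCoboundary₂_iff]
      refine ⟨fun _ => 1, ?_⟩
      rintro ⟨g, h⟩
      obtain rfl : g = 1 := Subsingleton.elim _ _
      obtain rfl : h = 1 := Subsingleton.elim _ _
      simp [cob_apply, cycCocycle, cycIdx_one hσ]
  · constructor
    · rintro ⟨b, hb⟩
      refine ⟨b σ, ?_⟩
      rw [hnorm]
      have hstep : ∀ k ∈ range (Nat.card G), σ ^ k • b σ =
          x ^ ((k + 1) / Nat.card G) * (b (σ ^ (k + 1)) / b (σ ^ k)) := by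
        intro k hk
        have hk' := mem_range.1 hk
        have := hb (σ ^ k) σ
        simp only [cycCocycle, cycIdx_pow hσ, cycIdx_gen hσ h2, Nat.mod_eq_of_lt hk',
          ← pow_succ] at this
        rw [← this]
        apply Additive.ofMul.injective
        simp only [ofMul_mul, ofMul_div]
        abel
      rw [Finset.prod_congr rfl hstep, Finset.prod_mul_distrib,
        Finset.prod_range_div (fun k => b (σ ^ k)), gen_pow_card hσ, pow_zero, div_self', mul_one]
      obtain ⟨m, hm⟩ : ∃ m, Nat.card G = m + 1 := ⟨Nat.card G - 1, by omega⟩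
      rw [hm, prod_range_succ, Nat.div_self (by omega), pow_one, Finset.prod_eq_one, one_mul]
      intro k hk
      rw [Nat.div_eq_of_lt (by have := mem_range.1 hk; omega), pow_zero]
    · rintro ⟨y, hy⟩
      rw [hnorm] at hy
      let b : G → M := fun g => ∏ l ∈ range (cycIdx σ g), σ ^ l • y
      rw [isMulCoboundary₂_iff]
      refine ⟨b, fun p => ?_⟩
      have hd : IsMulCocycle₂ (fun p => cycCocycle σ x p / cob b p) :=
        isMulCocycle₂_div (cycCocycle_isMulCocycle₂ hσ hx) (cob_isMulCocycle₂ b)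
      have h11 : cycCocycle σ x (1, 1) / cob b (1, 1) = 1 := by
        simp [cob_apply, cycCocycle, b, cycIdx_one hσ]
      have hgσ : ∀ g, cycCocycle σ x (g, σ) / cob b (g, σ) = 1 := by
        intro g
        have hbσ : b σ = y := by
          simp only [b, cycIdx_gen hσ h2, prod_range_one, pow_zero, one_smul]
        have hbg : b g = ∏ l ∈ range (cycIdx σ g), σ ^ l • y := rfl
        have hgy : g • y = σ ^ cycIdx σ g • y := by rw [cycIdx_spec hσ g]
        simp only [cob_apply, cycCocycle, hbσ, cycIdx_gen hσ h2]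
        rcases Nat.lt_or_ge (cycIdx σ g + 1) (Nat.card G) with hlt | hge
        · have hb' : b (g * σ) =
              (∏ l ∈ range (cycIdx σ g), σ ^ l • y) * σ ^ cycIdx σ g • y := by
            simp only [b, cycIdx_mul_gen_of_lt hσ h2 g hlt, prod_range_succ]
          rw [hb', hbg, hgy, Nat.div_eq_of_lt hlt, pow_zero]
          apply Additive.ofMul.injective
          simp only [ofMul_mul, ofMul_div, ofMul_one]
          abel
        · have heq : cycIdx σ g + 1 = Nat.card G := by have := cycIdx_lt hσ g; omega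
          have hb' : b (g * σ) = 1 := by
            simp only [b, cycIdx_mul_gen_of_eq hσ h2 g heq, prod_range_zero]
          have hxe : x = (∏ l ∈ range (cycIdx σ g), σ ^ l • y) * σ ^ cycIdx σ g • y := by
            rw [← hy, ← heq, prod_range_succ]
          rw [hb', hbg, hgy, heq, Nat.div_self (by omega), pow_one, hxe]
          apply Additive.ofMul.injective
          simp only [ofMul_mul, ofMul_div, ofMul_one]
          abel
      exact div_eq_one.mp (cocycle_eq_one hσ hd h11 hgσ p)

end Iff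

end Fermat.Agent.S55.Local.H241
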